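import Fermat.Agent.LLL.Swap
import Fermat.Agent.LLL.Bounds
import Mathlib.Analysis.InnerProductSpace.PiL2
import Mathlib.Data.Fintype.Pi
import Mathlib.Algebra.BigOperators.Fin

/-!
# Lattice attack on low-density subset sums

For weights `a` and `s = ∑ i ∈ S, a i` the lattice of the rows `(e i, N a i)` and `(0, N s)` holds
the indicator of `S`. A reduced first vector has small entries, so it is a multiple of the indicator
unless some small integral vector is orthogonal to `a`, which few weight vectors allow.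
-/

set_option autoImplicit false

noncomputable section

namespace FA.SubsetSum

open Finset

variable {n : ℕ}

/-- The rows of the knapsack lattice. -/
def knapsackVec (a : Fin n → ℕ) (s N : ℕ) (k : Fin (n + 1)) : EuclideanSpace ℝ (Fin (n + 1)) :=
  WithLp.toLp 2 (Fin.lastCases (Fin.snoc 0 ((N * s : ℕ) : ℝ))
    (fun i => Fin.snoc (Pi.single i 1) ((N * a i : ℕ) : ℝ)) k)

/-- The indicator of `S`, with last coordinate `0`. -/
def indicatorVec (S : Finset (Fin n)) : EuclideanSpace ℝ (Fin (n + 1)) :=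
  WithLp.toLp 2 (Fin.snoc (fun i => if i ∈ S then 1 else 0) 0)

/-- Small integral combinations of `a` equal to a multiple of `s` are multiples of `S`. -/
def NoSpurious (a : Fin n → ℕ) (S : Finset (Fin n)) : Prop :=
  ∀ c : Fin n → ℤ, (∀ i, |c i| ≤ ((n * 2 ^ n : ℕ) : ℤ)) → ∀ t : ℤ,
    ∑ i, c i * a i = t * ((∑ i ∈ S, a i : ℕ) : ℤ) →
      ∃ u : ℤ, ∀ i, c i = if i ∈ S then u else 0

theorem comb_castSucc (a : Fin n → ℕ) (s N : ℕ) (c : Fin (n + 1) → ℤ) (l : Fin n) :
    (∑ k, (c k : ℝ) • knapsackVec a s N k) l.castSucc = c l.castSucc := by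
  simp [knapsackVec, Fin.sum_univ_castSucc, Pi.single_apply]

theorem comb_last (a : Fin n → ℕ) (s N : ℕ) (c : Fin (n + 1) → ℤ) :
    (∑ k, (c k : ℝ) • knapsackVec a s N k) (Fin.last n) =
      ((N * (∑ i : Fin n, c i.castSucc * a i + c (Fin.last n) * s) : ℤ) : ℝ) := by
  simp [knapsackVec, Fin.sum_univ_castSucc, mul_add, mul_sum, mul_left_comm]

theorem knapsackVec_linearIndependent {a : Fin n → ℕ} {s N : ℕ} (hs : 0 < s) (hN : 0 < N) :
    LinearIndependent ℝ (knapsackVec a s N) := by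
  rw [Fintype.linearIndependent_iff]
  intro c hc
  have hlow : ∀ l : Fin n, c l.castSucc = 0 := fun l => by
    have := congrArg (fun v : EuclideanSpace ℝ (Fin (n + 1)) => v l.castSucc) hc
    simpa [knapsackVec, Fin.sum_univ_castSucc, Pi.single_apply] using this
  refine fun i => Fin.lastCases ?_ hlow i
  have := congrArg (fun v : EuclideanSpace ℝ (Fin (n + 1)) => v (Fin.last n)) hc
  simp [knapsackVec, Fin.sum_univ_castSucc, hlow] at this
  exact this.resolve_right (by omega)

/-- **The deterministic criterion.** -/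
theorem first_vector_eq {a : Fin n → ℕ} {S : Finset (Fin n)} (hS : S.Nonempty) {N : ℕ}
    (hN : n * 2 ^ n < N) (hspur : NoSpurious a S)
    {b : Fin (n + 1) → EuclideanSpace ℝ (Fin (n + 1))} (hb : LinearIndependent ℝ b)
    (hlat : Submodule.span ℤ (Set.range b) =
      Submodule.span ℤ (Set.range (knapsackVec a (∑ i ∈ S, a i) N)))
    (hred : FA.LLL.IsReduced (3 / 4) b) :
    ∃ u : ℤ, u ≠ 0 ∧ b 0 = (u : ℝ) • indicatorVec S := by
  obtain ⟨s, hs⟩ : ∃ s, s = ∑ i ∈ S, a i := ⟨_, rfl⟩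
  rw [← hs] at hlat
  obtain ⟨χ, hχ⟩ : ∃ χ : Fin (n + 1) → ℤ,
      χ = Fin.snoc (fun i => if i ∈ S then 1 else 0) (-1) := ⟨_, rfl⟩
  have hchi : ∑ k, (χ k : ℝ) • knapsackVec a s N k = indicatorVec S := by
    ext l
    refine Fin.lastCases ?_ (fun i => ?_) l
    · rw [comb_last]
      simp [indicatorVec, hχ, hs, sum_ite_mem]
    · rw [comb_castSucc]
      simp [indicatorVec, hχ]
  have hmem : indicatorVec S ∈ FA.LLL.lattice b := hlat.ge (FA.LLL.mem_lattice_iff.2 ⟨χ, hchi⟩)
  have hne : indicatorVec S ≠ 0 := fun h => by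
    obtain ⟨i, hi⟩ := hS
    have := congrArg (fun v : EuclideanSpace ℝ (Fin (n + 1)) => v i.castSucc) h
    simp [indicatorVec, hi] at this
  have hnorm : ‖indicatorVec S‖ ^ 2 = S.card := by
    rw [EuclideanSpace.norm_sq_eq, Fin.sum_univ_castSucc]
    simp [indicatorVec]
  obtain ⟨_, hshort⟩ := FA.LLL.le_successive (FA.LLL.nonDeg_of_linearIndependent hb) hred.1 hred.2
    (LinearIndependent.of_subsingleton (R := ℝ) (v := fun _ : Fin 1 => indicatorVec S) 0 hne)
    (fun _ => hmem) (i := (0 : Fin (n + 1))) (by simp)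
  rw [hnorm, Nat.add_sub_cancel] at hshort
  have hR : ‖b 0‖ ^ 2 ≤ ((n * 2 ^ n : ℕ) : ℝ) := by
    refine hshort.trans ?_
    rw [mul_comm n, Nat.cast_mul, Nat.cast_pow, Nat.cast_ofNat]
    refine mul_le_mul_of_nonneg_left ?_ (pow_nonneg zero_le_two n)
    exact_mod_cast card_finset_fin_le S
  obtain ⟨c, hc⟩ := FA.LLL.mem_lattice_iff.1 (hlat.le (Submodule.subset_span ⟨0, rfl⟩))
  have hcoord : ∀ l, ((b 0) l) ^ 2 ≤ ((n * 2 ^ n : ℕ) : ℝ) := fun l => by
    refine le_trans ?_ hR
    rw [EuclideanSpace.norm_sq_eq, ← sq_abs ((b 0) l)]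
    exact single_le_sum (f := fun j => ‖(b 0) j‖ ^ 2) (fun j _ => sq_nonneg _) (mem_univ l)
  have hsmall : ∀ i : Fin n, |c i.castSucc| ≤ ((n * 2 ^ n : ℕ) : ℤ) := fun i => by
    have h := hcoord i.castSucc
    rw [← hc, comb_castSucc] at h
    have h' : c i.castSucc ^ 2 ≤ ((n * 2 ^ n : ℕ) : ℤ) := by
      rw [← Int.cast_pow, ← Int.cast_natCast] at h
      exact Int.cast_le.1 h
    refine (Int.le_self_sq _).trans ?_
    rwa [sq_abs]
  have hL : ∑ i : Fin n, c i.castSucc * a i + c (Fin.last n) * s = 0 := by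
    by_contra hL0
    have h := hcoord (Fin.last n)
    rw [← hc, comb_last] at h
    have h' : ((N : ℤ) * (∑ i : Fin n, c i.castSucc * a i + c (Fin.last n) * s)) ^ 2 ≤
        ((n * 2 ^ n : ℕ) : ℤ) := by
      rw [← Int.cast_pow, ← Int.cast_natCast (n := n * 2 ^ n)] at h
      exact Int.cast_le.1 h
    have h1 : (N : ℤ) ≤ ((N : ℤ) * |∑ i : Fin n, c i.castSucc * a i + c (Fin.last n) * s|) :=
      le_mul_of_one_le_right (Int.natCast_nonneg N) (Int.one_le_abs hL0)
    rw [← Nat.abs_cast N, ← abs_mul, Nat.abs_cast] at h1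
    have h2 := (h1.trans (Int.le_self_sq _)).trans ((sq_abs _).le.trans h')
    exact absurd (Int.ofNat_le.1 h2) (not_le.2 hN)
  obtain ⟨u, hu⟩ := hspur (fun i => c i.castSucc) hsmall (-c (Fin.last n))
    (by rw [← hs]; linarith)
  have heq : b 0 = (u : ℝ) • indicatorVec S := by
    ext l
    refine Fin.lastCases ?_ (fun i => ?_) l
    · rw [← hc, comb_last, hL]
      simp [indicatorVec]
    · rw [← hc, comb_castSucc, hu i]
      simp [indicatorVec]
  refine ⟨u, fun h0 => hb.ne_zero 0 ?_, heq⟩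
  rw [heq, h0, Int.cast_zero, zero_smul]

/-- The weight vectors with entries in `[1, A]`. -/
def weightBox (n A : ℕ) : Finset (Fin n → ℕ) := Fintype.piFinset fun _ => Finset.Icc 1 A

theorem card_update {A : ℕ} (i : Fin n) (T : Finset ℕ) :
    (Fintype.piFinset (Function.update (fun _ : Fin n => Finset.Icc 1 A) i T)).card =
      T.card * A ^ (n - 1) := by
  rw [Fintype.card_piFinset, ← mul_prod_erase _ _ (mem_univ i), Function.update_self,
    prod_congr rfl (g := fun _ => A) fun j hj => by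
      rw [Function.update_of_ne (ne_of_mem_erase hj), Nat.card_Icc, Nat.add_sub_cancel],
    prod_const, card_erase_of_mem (mem_univ i), Finset.card_univ, Fintype.card_fin]

theorem card_orthogonal_le {A : ℕ} {d : Fin n → ℤ} (hd : d ≠ 0) :
    ((weightBox n A).filter fun a => ∑ i, d i * (a i : ℤ) = 0).card ≤ A ^ (n - 1) := by
  obtain ⟨i, hi⟩ := Function.ne_iff.1 hd
  refine (card_le_card_of_injOn (fun a => Function.update a i 1)
    (t := Fintype.piFinset (Function.update (fun _ : Fin n => Finset.Icc 1 A) i {1}))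
    (fun a ha => ?_) fun a ha b hb hab => ?_).trans (le_of_eq ?_)
  · rw [mem_coe, Fintype.mem_piFinset]
    intro j
    rw [mem_coe, mem_filter, weightBox, Fintype.mem_piFinset] at ha
    rcases eq_or_ne j i with rfl | hj
    · simp
    · simpa [Function.update_of_ne hj] using ha.1 j
  · rw [mem_coe, mem_filter] at ha hb
    have heq : ∀ j, j ≠ i → a j = b j := fun j hj => by
      simpa [Function.update_of_ne hj] using congrFun hab j
    funext j
    rcases eq_or_ne j i with rfl | hj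
    · have h := ha.2.trans hb.2.symm
      rw [← add_sum_erase _ _ (mem_univ j), ← add_sum_erase _ _ (mem_univ j),
        sum_congr rfl (g := fun l => d l * (b l : ℤ)) fun l hl => by
          rw [heq l (ne_of_mem_erase hl)]] at h
      exact_mod_cast mul_left_cancel₀ hi (add_right_cancel h)
    · exact heq j hj
  · rw [card_update, card_singleton, one_mul]

theorem card_bad_le {A : ℕ} {S : Finset (Fin n)} (hS : S.Nonempty)
    (hA : 2 ^ (5 * (n + 1) ^ 2) ≤ A) {bad : Finset (Fin n → ℕ)}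
    (hbox : bad ⊆ weightBox n A) (hbad : ∀ a ∈ bad, ¬NoSpurious a S) :
    bad.card * 2 ^ (n - 1) ≤ A ^ n := by
  obtain ⟨j₀, hj₀⟩ := hS
  obtain ⟨k, hk⟩ : ∃ k, n = k + 1 := ⟨n - 1, by have := j₀.isLt; omega⟩
  obtain ⟨R, hR⟩ : ∃ R, R = n * 2 ^ n := ⟨_, rfl⟩
  obtain ⟨K, hK⟩ : ∃ K, K = R + n * R * 2 ^ n := ⟨_, rfl⟩
  obtain ⟨B, hB⟩ : ∃ B : Finset (Fin n → ℤ),
      B = (Fintype.piFinset fun _ => Finset.Icc (-(K : ℤ)) K).erase 0 := ⟨_, rfl⟩
  have hcover : bad ⊆
      Fintype.piFinset (Function.update (fun _ : Fin n => Finset.Icc 1 A) j₀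
        (Finset.Icc 1 (A / 2 ^ n))) ∪
      B.biUnion fun d => (weightBox n A).filter fun a => ∑ i, d i * (a i : ℤ) = 0 := by
    intro a ha
    have hbox' := hbox ha
    rw [weightBox, Fintype.mem_piFinset] at hbox'
    simp only [Finset.mem_Icc] at hbox'
    rcases le_or_gt (a j₀) (A / 2 ^ n) with hle | hgt
    · refine mem_union_left _ (Fintype.mem_piFinset.2 fun j => ?_)
      rcases eq_or_ne j j₀ with rfl | hj
      · simpa using ⟨(hbox' j).1, hle⟩
      · simpa [Function.update_of_ne hj] using hbox' j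
    refine mem_union_right _ ?_
    have h := hbad a ha
    simp only [NoSpurious, not_forall, not_exists] at h
    obtain ⟨c, hc, t, ht, hne⟩ := h
    rw [← hR] at hc
    obtain ⟨s, hs⟩ : ∃ s, s = ∑ i ∈ S, a i := ⟨_, rfl⟩
    rw [← hs] at ht
    have hsA : A ≤ s * 2 ^ n :=
      ((Nat.div_lt_iff_lt_mul (pow_pos two_pos n)).1 hgt).le.trans (Nat.mul_le_mul_right _
        (hs ▸ single_le_sum (fun i _ => Nat.zero_le (a i)) hj₀))
    have hs0 : 0 < s := lt_of_lt_of_le (hbox' j₀).1
      (hs ▸ single_le_sum (fun i _ => Nat.zero_le (a i)) hj₀)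
    have htb : |t| ≤ ((n * R * 2 ^ n : ℕ) : ℤ) := by
      refine le_of_mul_le_mul_right ?_ (Int.natCast_pos.2 hs0)
      rw [← Nat.abs_cast s, ← abs_mul, Nat.abs_cast, ← ht]
      refine (abs_sum_le_sum_abs _ _).trans ?_
      refine (sum_le_card_nsmul _ _ ((R * A : ℕ) : ℤ) fun i _ => ?_).trans ?_
      · rw [abs_mul, Nat.abs_cast, Nat.cast_mul]
        exact mul_le_mul (hc i) (Int.ofNat_le.2 (hbox' i).2) (Int.natCast_nonneg _)
          (Int.natCast_nonneg _)
      · rw [Finset.card_univ, Fintype.card_fin, nsmul_eq_mul, ← Nat.cast_mul, ← Nat.cast_mul,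
          Int.ofNat_le]
        calc n * (R * A) ≤ n * (R * (s * 2 ^ n)) := by gcongr
          _ = n * R * 2 ^ n * s := by ring
    rw [mem_biUnion]
    refine ⟨fun i => c i - if i ∈ S then t else 0, ?_, mem_filter.2 ⟨hbox ha, ?_⟩⟩
    · rw [hB, mem_erase, Fintype.mem_piFinset]
      refine ⟨fun h0 => ?_, fun i => ?_⟩
      · obtain ⟨i, hi⟩ := hne t
        exact hi (sub_eq_zero.1 (congrFun h0 i))
      · rw [Finset.mem_Icc, hK, Nat.cast_add]
        have h1 := hc i
        rw [abs_le] at h1 htb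
        constructor <;> split_ifs <;> omega
    · simp only [sub_mul, sum_sub_distrib, ite_mul, zero_mul, sum_ite_mem, univ_inter, ht]
      rw [hs, Nat.cast_sum, mul_sum, sub_self]
  have hc1 : (Fintype.piFinset (Function.update (fun _ : Fin n => Finset.Icc 1 A) j₀
      (Finset.Icc 1 (A / 2 ^ n)))).card * 2 ^ n ≤ A ^ n := by
    rw [card_update, Nat.card_Icc, Nat.add_sub_cancel, mul_right_comm, hk, Nat.add_sub_cancel,
      pow_succ' A]
    exact Nat.mul_le_mul_right _ (Nat.div_mul_le_self _ _)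
  have hKb : 2 * K + 1 ≤ 2 ^ (4 * n + 3) := by
    have hn : n ≤ 2 ^ n := Nat.lt_two_pow_self.le
    have h1 : R ≤ 2 ^ (2 * n) := by
      rw [hR, two_mul, pow_add]
      exact Nat.mul_le_mul_right _ hn
    have h2 : n * R * 2 ^ n ≤ 2 ^ (4 * n) := by
      rw [show 4 * n = n + 2 * n + n by ring, pow_add, pow_add]
      exact Nat.mul_le_mul_right _ (Nat.mul_le_mul hn h1)
    have h3 : 2 ^ (2 * n) ≤ 2 ^ (4 * n) := Nat.pow_le_pow_right two_pos (by omega)
    have h4 : 0 < 2 ^ (4 * n) := pow_pos two_pos _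
    rw [hK, pow_add]
    omega
  have hc2 : (B.biUnion fun d => (weightBox n A).filter fun a =>
      ∑ i, d i * (a i : ℤ) = 0).card * 2 ^ n ≤ A ^ n := by
    refine (Nat.mul_le_mul_right _ (card_biUnion_le.trans (sum_le_card_nsmul _ _ (A ^ (n - 1))
      fun d hd => card_orthogonal_le (ne_of_mem_erase (hB ▸ hd))))).trans ?_
    have hBcard : B.card ≤ (2 ^ (4 * n + 3)) ^ n := by
      refine (hB ▸ card_erase_le).trans ?_
      rw [Fintype.card_piFinset, prod_const, Finset.card_univ, Fintype.card_fin, Int.card_Icc]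
      exact Nat.pow_le_pow_left (by omega) n
    have hexp : B.card * 2 ^ n ≤ A := by
      refine le_trans ((Nat.mul_le_mul_right _ hBcard).trans ?_) hA
      rw [← pow_mul, ← pow_add]
      exact Nat.pow_le_pow_right two_pos (by nlinarith)
    rw [smul_eq_mul, mul_right_comm]
    exact (Nat.mul_le_mul_right _ hexp).trans_eq
      (by rw [← pow_succ', show n - 1 + 1 = n by omega])
  have h := Nat.mul_le_mul_right (2 ^ n) ((card_le_card hcover).trans (card_union_le _ _))
  rw [add_mul] at h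
  have h2 : bad.card * 2 ^ n = 2 * (bad.card * 2 ^ (n - 1)) := by
    rw [show 2 ^ n = 2 ^ (n - 1) * 2 by rw [← pow_succ, show n - 1 + 1 = n by omega]]
    ring
  omega

end FA.SubsetSum
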